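import Fermat.Agent.ModularDiff.CuspForms

/-!
# `q`-expansions of derivatives and of quotients of forms

`hasQExp_dH`: the expansion of a derivative is `2πi/h` times `q d/dq` (`thetaSeries`) of the
expansion; `hasQExp_formOf_D`, `hasQExp_formOf_smul` give the expansions of the forms of
differentials, and `exists_quotient` writes the quotient of two weight two forms as the element of
`FC N` whose series is the quotient of their series.
-/

set_option autoImplicit false

noncomputable section

open UpperHalfPlane Filter Topology ModularCurve AlgebraicCurve CongruenceSubgroup KaehlerDifferential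
open scoped MatrixGroups ModularForm Manifold

namespace FLTAgent.ModularDiff

open FLTAgent.Modular

variable {h : ℝ} {f : ℍ → ℂ} {y : LaurentSeries ℂ}

/-- `q d/dq` on Laurent series. -/
def thetaSeries (y : LaurentSeries ℂ) : LaurentSeries ℂ where
  coeff k := (k : ℂ) * y.coeff k
  isPWO_support' := y.isPWO_support.mono fun k hk hk0 => hk (by simp [hk0])

@[simp] theorem thetaSeries_coeff (y : LaurentSeries ℂ) (k : ℤ) :
    (thetaSeries y).coeff k = (k : ℂ) * y.coeff k := rfl

/-- The derivative series of a power series at a point close to the origin. -/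
theorem hasSum_mul_deriv {G : ℂ → ℂ} {c : ℕ → ℂ}
    (hG : HasFPowerSeriesAt G (FormalMultilinearSeries.ofScalars ℂ c) 0) :
    ∀ᶠ q in 𝓝 (0 : ℂ), HasSum (fun n : ℕ => (n : ℂ) * c n * q ^ n) (q * deriv G q) := by
  obtain ⟨r, hr⟩ := hG
  have h1 := (ContinuousLinearMap.apply ℂ ℂ (1 : ℂ)).comp_hasFPowerSeriesOnBall hr.fderiv
  filter_upwards [Metric.eball_mem_nhds (0 : ℂ) hr.r_pos] with q hq
  have h2 := h1.hasSum hq
  rw [zero_add] at h2
  have h2' := h2.mul_left q
  have hshift : HasSum (fun n : ℕ => ((n + 1 : ℕ) : ℂ) * c (n + 1) * q ^ (n + 1))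
      (q * deriv G q) := by
    refine h2'.congr_fun fun n => ?_
    simp [FormalMultilinearSeries.coeff_ofScalars]
    ring
  simpa using (hasSum_nat_add_iff (f := fun n : ℕ => (n : ℂ) * c n * q ^ n) 1).1 hshift

/-- The `q`-expansion of a derivative is `2πi/h` times `q d/dq` of the expansion. -/
theorem hasQExp_dH (hh : 0 < h) (hf : HasQExp h f y) :
    HasQExp h (dH f) ((2 * Real.pi * Complex.I / h : ℂ) • thetaSeries y) := by
  set m := y.order
  have hlow : ∀ k < m, y.coeff k = 0 := fun k hk => HahnSeries.coeff_eq_zero_of_lt_order hk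
  obtain ⟨G, hG, -, hev, hps⟩ := hf.exists_analyticAt hh hlow
  set b : ℂ := 2 * Real.pi * Complex.I / h with hb
  have hq := tendsto_qParam_atImInfty hh
  obtain ⟨A, hA⟩ := eventually_nhds_of_atImInfty hev
  have hA' : ∀ᶠ z : ℍ in atImInfty, A < z.im := by
    rw [Filter.Eventually, atImInfty_mem]
    exact ⟨A + 1, fun z hz => show A < z.im by linarith⟩
  rw [hasQExp_iff]
  filter_upwards [hA', hq.eventually hG.eventually_analyticAt,
    hq.eventually (hasSum_mul_deriv hps),
    hq.eventually (hasFPowerSeriesAt_iff.1 hps)] with z hz hGz hsum hsum0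
  have heq : f ∘ ofComplex =ᶠ[𝓝 (z : ℂ)]
      fun w => Complex.exp (b * m * w) * G (Complex.exp (b * w)) := by
    filter_upwards [hA z hz] with w hw
    rw [Function.comp_apply, hw.2, ofComplex_apply_of_im_pos hw.1]
    simp only [qPow, Function.Periodic.qParam, hb]
    ring_nf
  have hqz : Function.Periodic.qParam h (z : ℂ) = Complex.exp (b * z) := by
    simp only [Function.Periodic.qParam, hb]; ring_nf
  rw [hqz] at hGz hsum hsum0
  have hder := ((((hasDerivAt_id (z : ℂ)).const_mul (b * m)).cexp).mul
    (hGz.differentiableAt.hasDerivAt.comp (z : ℂ) ((hasDerivAt_id (z : ℂ)).const_mul b).cexp))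
  have hval : dH f z = b * qPow h m z *
      ((m : ℂ) * G (Complex.exp (b * z)) + Complex.exp (b * z) * deriv G (Complex.exp (b * z))) := by
    rw [dH, heq.deriv_eq]
    refine hder.deriv.trans ?_
    have : qPow h m z = Complex.exp (b * m * z) := by simp only [qPow, hb]; ring_nf
    simp [this]
    ring
  rw [hval]
  rw [zero_add] at hsum0
  have htot := ((hsum0.mul_left (m : ℂ)).add hsum).mul_left (b * qPow h m z)
  have hinj : Function.Injective fun n : ℕ => m + (n : ℤ) := fun a b hab => by simpa using hab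
  refine (hinj.hasSum_iff fun k hk => ?_).1 (htot.congr_fun fun n => ?_)
  · rw [HahnSeries.coeff_smul, thetaSeries_coeff,
      hlow k (not_le.1 fun hmk => hk ⟨(k - m).toNat, by simp [Int.toNat_of_nonneg (sub_nonneg.2 hmk)]⟩)]
    simp
  · simp only [Function.comp_apply, HahnSeries.coeff_smul, thetaSeries_coeff, smul_eq_mul,
      FLTAgent.Modular.qPow_add, qPow_natCast, hqz, FormalMultilinearSeries.coeff_ofScalars]
    push_cast
    ring

variable {N : ℕ} [NeZero N]

theorem HasQExp.nf (hh : 0 < h) (hf : HasQExp h f y) (hm : MeroH f) :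
    HasQExp h (nfH f) y := by
  refine hf.congr ?_
  filter_upwards [hf.eventually_analyticAt hh] with z hz
  have := (((isMero_nfH f) z).eventuallyEq_nhdsNE_iff_eventuallyEq_nhds hz.meromorphicNFAt).1
    (codEq_iff.1 (nfH_codEq hm) z) |>.eq_of_nhds
  simpa [comp_ofComplex_apply] using this.symm

/-- The series of the derivative of an element of the function field. -/
theorem hasQExp_formOf_D (y : FC N) :
    HasQExp 1 (formOf (KaehlerDifferential.D ℂ (FC N) y))
      ((2 * Real.pi * Complex.I : ℂ) • thetaSeries (y : LaurentSeries ℂ)) := by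
  have h1 : formOf (KaehlerDifferential.D ℂ (FC N) y) = nfH (dH (ev (y : LaurentSeries ℂ))) :=
    eq_of_codEq (isMero_formOf _) (isMero_nfH _)
      ((formOf_D y).trans (nfH_codEq (isWForm_dH_ev y).meroH).symm)
  rw [h1]
  refine HasQExp.nf one_pos ?_ (isWForm_dH_ev y).meroH
  simpa using hasQExp_dH one_pos (ev_spec y).2

theorem hasQExp_formOf_smul {ω : Ω[FC N⁄ℂ]} {s : LaurentSeries ℂ}
    (hs : HasQExp 1 (formOf ω) s) (y : FC N) :
    HasQExp 1 (formOf (y • ω)) ((y : LaurentSeries ℂ) * s) := by
  have hm : MeroH (ev (y : LaurentSeries ℂ) * formOf ω) :=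
    (ev_spec y).1.mero.meroH.mul (isMero_formOf ω).meroH
  rw [eq_of_codEq (isMero_formOf _) (isMero_nfH _) ((formOf_smul y ω).trans (nfH_codEq hm).symm)]
  exact HasQExp.nf one_pos ((ev_spec y).2.mul hs) hm

/-- The quotient of two weight two forms is in `FC N`, and its series is the quotient of series. -/
theorem exists_quotient {G E : ℍ → ℂ} (hG : IsWForm N G) (hE : IsWForm N E)
    {sG sE : LaurentSeries ℂ} (hsG : HasQExp 1 G sG) (hsE : HasQExp 1 E sE) (hsE0 : sE ≠ 0) :
    ∃ y : FC N, (y : LaurentSeries ℂ) = sG / sE ∧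
      ev (y : LaurentSeries ℂ) * E =ᶠ[codiscrete ℍ] G := by
  have hE' : NonzeroH E := fun z => hsE.order_ne_top one_pos
    (meromorphicOn_of_meroH hE.meroH) hsE0 z
  have hEq : quotForm N E ≠ 0 := by
    intro h0
    refine hE' (⟨Complex.I, by simp⟩ : ℍ) ?_
    rw [meromorphicOrderAt_congr_cod (quotForm_spec hE).symm, h0, meromorphicOrderAt_eq_top_iff]
    have h1 : ev ((0 : FC N) : LaurentSeries ℂ) = fun _ => (0 : ℂ) := by
      simpa using ev_algebraMap_eq (N := N) 0
    exact Eventually.of_forall fun w => by rw [h1]; simp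
  have key : ev ((quotForm N G / quotForm N E : FC N) : LaurentSeries ℂ) * E
      =ᶠ[codiscrete ℍ] G := by
    filter_upwards [ev_mul_cod (quotForm N G / quotForm N E) (quotForm N E), quotForm_spec hG,
      quotForm_spec hE] with z h1 h2 h3
    rw [div_mul_cancel₀ _ hEq] at h1
    simp only [Pi.mul_apply] at *
    rw [← h3, ← mul_assoc, ← h1, h2]
  refine ⟨_, ?_, key⟩
  rw [eq_div_iff hsE0]
  have hq := (ev_spec (quotForm N G / quotForm N E)).2.mul hsE
  have hm : MeroH (ev ((quotForm N G / quotForm N E : FC N) : LaurentSeries ℂ) * E) :=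
    (ev_spec _).1.mero.meroH.mul hE.meroH
  have he : nfH (ev ((quotForm N G / quotForm N E : FC N) : LaurentSeries ℂ) * E) = nfH G :=
    eq_of_codEq (isMero_nfH _) (isMero_nfH _)
      (((nfH_codEq hm).trans key).trans (nfH_codEq hG.meroH).symm)
  exact (HasQExp.nf one_pos hq hm).unique one_pos (he ▸ HasQExp.nf one_pos hsG hG.meroH)

end FLTAgent.ModularDiff
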