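import Fermat.Agent.ModularDiff.CuspForms
import Fermat.Agent.ModularPlaces.Genus

/-!
# The dimension formula for cusp forms of weight two

`finrank_cuspForm_eq_genusFormula` (statement S20): `dim S₂(Γ₀(N))` equals `genusFormula N`, from
the identification with holomorphic differentials (`finrank_cuspForm_eq_genusFF`) and the genus of
`FC N` (`ModularPlaces.genusFF_FC`).
-/

set_option autoImplicit false

noncomputable section

open CongruenceSubgroup
open scoped MatrixGroups

namespace FLTAgent.ModularDiff

/-- The dimension of the space of weight two cusp forms on `Γ₀(N)` is the genus formula. -/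
theorem finrank_cuspForm_eq_genusFormula (N : ℕ) [NeZero N] :
    (Module.finrank ℂ (CuspForm (Gamma0 N) 2) : ℚ) = ModularCurve.genusFormula N := by
  rw [finrank_cuspForm_eq_genusFF, ModularPlaces.genusFF_FC]

end FLTAgent.ModularDiff
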