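import Fermat.Agent.ModularDiff.Basic
import Fermat.Agent.Modular.QExp

/-!
# Derivatives at `i∞` and under `SL(2, ℤ)`

`tendsto_dH`: if `T q^(-n) → c` at `i∞` then `T' q^(-n) → 2πi n c / h`.  `dH_comp_smul`: the
derivative of `f ∘ γ` is `dH f ∣[2] γ` off a discrete set; translates and slashes of meromorphic
functions stay meromorphic (`isMero_comp_smul`, `isMero_slash`).
-/

set_option autoImplicit false

noncomputable section

open UpperHalfPlane Filter Topology
open scoped MatrixGroups ModularForm Manifold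

namespace FLTAgent.ModularDiff

open FLTAgent.Modular

variable {f g : ℍ → ℂ}

theorem norm_qPow' (h : ℝ) (k : ℤ) (z : ℍ) :
    ‖qPow h k z‖ = Real.exp (-(2 * Real.pi * k / h * z.im)) := by
  rw [norm_qPow, ← Real.rpow_intCast, ← Real.exp_mul]
  ring_nf

theorem tendsto_qPow {h : ℝ} (hh : 0 < h) {k : ℤ} (hk : 0 < k) :
    Tendsto (qPow h k) atImInfty (𝓝 0) := by
  rw [tendsto_zero_iff_norm_tendsto_zero]
  simp only [norm_qPow']
  refine Real.tendsto_exp_atBot.comp (tendsto_neg_atTop_atBot.comp ?_)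
  exact (tendsto_comap (f := UpperHalfPlane.im) (x := atTop)).const_mul_atTop
    (div_pos (mul_pos (mul_pos two_pos Real.pi_pos) (Int.cast_pos.2 hk)) hh)

theorem isBoundedAtImInfty_qPow {h : ℝ} (hh : 0 < h) {k : ℤ} (hk : 0 ≤ k) :
    IsBoundedAtImInfty (qPow h k) := by
  rcases hk.eq_or_lt with rfl | hk
  · exact (isBoundedAtImInfty_iff.2 ⟨1, 0, fun z _ => by simp [qPow_zero]⟩)
  · exact IsZeroAtImInfty.isBoundedAtImInfty (tendsto_qPow hh hk)

/-- A function in normal form with `T q^(-n)` convergent at `i∞` is analytic high up. -/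
theorem eventually_analyticAt_of_tendsto {T : ℍ → ℂ} (hT : IsMero T) {h : ℝ} {n : ℤ} {c : ℂ}
    (hlim : Tendsto (fun z => T z * qPow h n z) atImInfty (𝓝 c)) :
    ∀ᶠ z : ℍ in atImInfty, AnalyticAt ℂ (T ∘ ofComplex) (z : ℂ) := by
  set a : ℂ := 2 * Real.pi * Complex.I * (n : ℤ) / h with ha
  set S : ℂ → ℂ := fun w => (T ∘ ofComplex) w * Complex.exp (a * w) with hS
  have hq : ∀ z : ℍ, qPow h n z = Complex.exp (a * z) := by
    intro z; rw [ha, qPow]; ring_nf
  obtain ⟨A, hA⟩ : ∃ A : ℝ, ∀ z : ℍ, A ≤ z.im → ‖T z * qPow h n z - c‖ < 1 := by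
    have := Metric.tendsto_nhds.1 hlim 1 one_pos
    rw [Filter.Eventually, atImInfty_mem] at this
    obtain ⟨A, hA⟩ := this
    exact ⟨A, fun z hz => by simpa [dist_eq_norm] using hA z hz⟩
  have hSv : ∀ z : ℍ, S z = T z * qPow h n z := fun z => by
    simp [hS, hq, ofComplex_apply]
  -- analyticity high up
  have han : ∀ z : ℍ, A < z.im → AnalyticAt ℂ (T ∘ ofComplex) (z : ℂ) := by
    intro z hz
    rw [← (hT z).meromorphicOrderAt_nonneg_iff_analyticAt]
    by_contra hneg
    rw [not_le] at hneg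
    have h1 : MeromorphicAt S (z : ℂ) :=
      (hT z).meromorphicAt.mul (AnalyticAt.meromorphicAt (by fun_prop))
    have h2 : meromorphicOrderAt S (z : ℂ) < 0 := by
      rw [hS, ← Pi.mul_def, mul_comm,
        meromorphicOrderAt_mul_of_ne_zero (g := fun w : ℂ => Complex.exp (a * w)) (by fun_prop)
          (Complex.exp_ne_zero _)]
      exact hneg
    have h3 := (tendsto_norm_cobounded_atTop.comp
      ((tendsto_cobounded_iff_meromorphicOrderAt_neg h1).2 h2))
    have h4 : ∀ᶠ w in 𝓝[≠] (z : ℂ), ‖S w‖ ≤ ‖c‖ + 1 := by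
      filter_upwards [((isOpen_lt continuous_const Complex.continuous_im).mem_nhds hz :
        {w : ℂ | A < w.im} ∈ 𝓝 (z : ℂ)) |> mem_nhdsWithin_of_mem_nhds,
        (eventually_im_pos z).filter_mono nhdsWithin_le_nhds] with w hw hw'
      have := hA ⟨w, hw'⟩ hw.le
      rw [← hSv] at this
      have := norm_le_norm_add_norm_sub' (S w) c
      simp only at *
      linarith
    have h5 := (h3.eventually_ge_atTop (‖c‖ + 2))
    obtain ⟨w, hw1, hw2⟩ := (h4.and h5).exists
    simp at hw2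
    linarith
  rw [Filter.Eventually, atImInfty_mem]
  exact ⟨A + 1, fun z hz => han z (by linarith)⟩

/-- If `T q^(-n) → c` at `i∞`, then `T' q^(-n) → 2πi n c / h`. -/
theorem tendsto_dH {T : ℍ → ℂ} (hT : IsMero T) {h : ℝ} {n : ℤ} {c : ℂ}
    (hlim : Tendsto (fun z => T z * qPow h (-n) z) atImInfty (𝓝 c)) :
    Tendsto (fun z => dH T z * qPow h (-n) z) atImInfty
      (𝓝 (2 * Real.pi * Complex.I * n / h * c)) := by
  set a : ℂ := 2 * Real.pi * Complex.I * (-n : ℤ) / h with ha
  set S : ℂ → ℂ := fun w => (T ∘ ofComplex) w * Complex.exp (a * w) with hS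
  have hq : ∀ z : ℍ, qPow h (-n) z = Complex.exp (a * z) := by
    intro z; rw [ha, qPow]; ring_nf
  have hSv : ∀ z : ℍ, S z = T z * qPow h (-n) z := fun z => by
    simp [hS, hq, ofComplex_apply]
  obtain ⟨A, han⟩ : ∃ A : ℝ, ∀ z : ℍ, A < z.im → AnalyticAt ℂ (T ∘ ofComplex) (z : ℂ) := by
    have := eventually_analyticAt_of_tendsto hT hlim
    rw [Filter.Eventually, atImInfty_mem] at this
    obtain ⟨A, hA⟩ := this
    exact ⟨A, fun z hz => hA z hz.le⟩
  have hdiff : ∀ w : ℂ, A < w.im → 0 < w.im → DifferentiableAt ℂ S w := fun w hw hw' =>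
    (han ⟨w, hw'⟩ hw).differentiableAt.mul (by fun_prop)
  have hS' : Tendsto (fun z : ℍ => deriv S z) atImInfty (𝓝 0) := by
    rw [Metric.tendsto_nhds]
    intro ε hε
    have := Metric.tendsto_nhds.1 hlim (ε / 2) (half_pos hε)
    rw [Filter.Eventually, atImInfty_mem] at this ⊢
    obtain ⟨B, hB⟩ := this
    refine ⟨max (max A B) 0 + 2, fun z hz => ?_⟩
    have hball : ∀ w ∈ Metric.closedBall (z : ℂ) 1, max (max A B) 0 < w.im := by
      intro w hw
      have h1 := (abs_le.1 ((Complex.abs_im_le_norm (w - z)).trans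
        (mem_closedBall_iff_norm.1 hw))).1
      simp only [Complex.sub_im, coe_im] at h1
      linarith
    have key := Complex.norm_deriv_le_of_forall_mem_sphere_norm_le (f := fun w => S w - c)
      (C := ε / 2) (c := (z : ℂ)) one_pos ?_ ?_
    · rw [deriv_sub_const] at key
      simp only [Set.mem_ofPred_eq, dist_zero_right]
      linarith
    · refine DifferentiableOn.diffContOnCl fun w hw => ?_
      rw [closure_ball _ one_ne_zero] at hw
      have := hball w hw
      exact ((hdiff w (lt_of_le_of_lt (le_max_left _ _ |>.trans (le_max_left _ _)) this)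
        (lt_of_le_of_lt (le_max_right _ _) this)).sub_const c).differentiableWithinAt
    · intro w hw
      have h1 := hball w (Metric.sphere_subset_closedBall hw)
      have h2 : 0 < w.im := lt_of_le_of_lt (le_max_right _ _) h1
      have := hB ⟨w, h2⟩ ((le_max_right A B).trans (le_max_left _ _) |>.trans h1.le)
      simp only [Set.mem_ofPred_eq, dist_eq_norm, ← hSv] at this
      simpa using this.le
  have hev : (fun z : ℍ => deriv S z - a * S z) =ᶠ[atImInfty]
      fun z => dH T z * qPow h (-n) z := by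
    rw [Filter.EventuallyEq, Filter.Eventually, atImInfty_mem]
    refine ⟨A + 1, fun z hz => ?_⟩
    have h1 := (han z (by linarith)).differentiableAt.hasDerivAt.mul
      (((hasDerivAt_id (z : ℂ)).const_mul a).cexp)
    have h2 : deriv S z = _ := h1.deriv
    simp only [Set.mem_ofPred_eq]
    rw [h2]
    simp only [hS, dH, hq]
    simp [ofComplex_apply]
    ring
  refine Tendsto.congr' hev ?_
  have hSlim : Tendsto (fun z : ℍ => S z) atImInfty (𝓝 c) := hlim.congr fun z => (hSv z).symm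
  convert hS'.sub (hSlim.const_mul a) using 2
  rw [ha]
  push_cast
  ring

/-! ### Action of `SL(2, ℤ)` -/

theorem det_sl_pos (γ : SL(2, ℤ)) : 0 < (γ : GL (Fin 2) ℝ).val.det := by
  show 0 < ((Matrix.SpecialLinearGroup.map (Int.castRingHom ℝ) γ : SL(2, ℝ)) :
    Matrix (Fin 2) (Fin 2) ℝ).det
  rw [Matrix.SpecialLinearGroup.det_coe]
  exact one_pos

theorem analyticAt_slSMul (γ : SL(2, ℤ)) (z : ℍ) :
    AnalyticAt ℂ (fun w : ℂ => ((γ • ofComplex w : ℍ) : ℂ)) z :=
  UpperHalfPlane.analyticAt_smul (g := (γ : GL (Fin 2) ℝ)) (det_sl_pos γ) z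

theorem deriv_slSMul_ne_zero (γ : SL(2, ℤ)) (z : ℍ) :
    deriv (fun w : ℂ => ((γ • ofComplex w : ℍ) : ℂ)) z ≠ 0 :=
  UpperHalfPlane.deriv_smul_ne_zero (g := (γ : GL (Fin 2) ℝ)) (det_sl_pos γ) z

theorem deriv_slSMul (γ : SL(2, ℤ)) (z : ℍ) :
    deriv (fun w : ℂ => ((γ • ofComplex w : ℍ) : ℂ)) z = denom γ z ^ (-2 : ℤ) := by
  have := UpperHalfPlane.deriv_smul (g := (γ : GL (Fin 2) ℝ)) (det_sl_pos γ) z
  refine this.trans ?_
  have h1 : (γ : GL (Fin 2) ℝ).val.det = 1 := by
    show ((Matrix.SpecialLinearGroup.map (Int.castRingHom ℝ) γ : SL(2, ℝ)) :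
      Matrix (Fin 2) (Fin 2) ℝ).det = 1
    exact Matrix.SpecialLinearGroup.det_coe _
  rw [h1]
  norm_num [zpow_neg]

theorem comp_smul_comp_ofComplex (f : ℍ → ℂ) (γ : SL(2, ℤ)) :
    (fun z : ℍ => f (γ • z)) ∘ ofComplex =
      (f ∘ ofComplex) ∘ fun w : ℂ => ((γ • ofComplex w : ℍ) : ℂ) := by
  funext w
  simp [ofComplex_apply]

theorem isMero_comp_smul (hf : IsMero f) (γ : SL(2, ℤ)) : IsMero fun z => f (γ • z) := by
  intro z
  rw [comp_smul_comp_ofComplex]
  refine MeromorphicNFAt.comp_analyticAt ?_ (analyticAt_slSMul γ z)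
  simpa [ofComplex_apply] using hf (γ • z)

theorem meroH_comp_smul (hf : MeroH f) (γ : SL(2, ℤ)) : MeroH fun z => f (γ • z) := by
  intro z
  rw [comp_smul_comp_ofComplex]
  refine MeromorphicAt.comp_analyticAt ?_ (analyticAt_slSMul γ z)
  simpa [ofComplex_apply] using hf (γ • z)

theorem tendsto_smul_cod (γ : SL(2, ℤ)) :
    Tendsto (fun z : ℍ => γ • z) (codiscrete ℍ) (codiscrete ℍ) := by
  intro s hs
  rw [mem_map, mem_codiscrete]
  rw [mem_codiscrete] at hs
  intro z
  rw [disjoint_principal_right, compl_compl]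
  have h1 := hs (γ • z)
  rw [disjoint_principal_right, compl_compl] at h1
  have h2 : Tendsto (fun w : ℍ => γ • w) (𝓝[≠] z) (𝓝[≠] (γ • z)) :=
    (show Continuous fun w : ℍ => γ • w from
      continuous_const_smul (γ : GL (Fin 2) ℝ)).continuousWithinAt.tendsto_nhdsWithin fun w hw => by
      simpa using hw
  exact h2 h1

theorem codEq_slash (h : f =ᶠ[codiscrete ℍ] g) (γ : SL(2, ℤ)) (k : ℤ) :
    f ∣[k] γ =ᶠ[codiscrete ℍ] g ∣[k] γ := by
  filter_upwards [h.comp_tendsto (tendsto_smul_cod γ)] with z hz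
  simp only [Function.comp_apply] at hz
  rw [ModularForm.SL_slash_apply, ModularForm.SL_slash_apply, hz]

theorem dH_comp_smul (hf : MeroH f) (γ : SL(2, ℤ)) :
    dH (fun z => f (γ • z)) =ᶠ[codiscrete ℍ] dH f ∣[(2 : ℤ)] γ := by
  filter_upwards [(tendsto_smul_cod γ).eventually hf.analyticAt_cod] with z hz
  rw [ModularForm.SL_slash_apply, dH, comp_smul_comp_ofComplex, deriv_comp,
    deriv_slSMul, dH]
  · simp [ofComplex_apply]
  · simpa [ofComplex_apply] using hz.differentiableAt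
  · exact (analyticAt_slSMul γ z).differentiableAt

theorem denom_analyticAt (γ : SL(2, ℤ)) (k : ℤ) (z : ℍ) :
    AnalyticAt ℂ (fun w : ℂ => denom γ w ^ k) z :=
  AnalyticAt.fun_zpow (by unfold denom; fun_prop) (denom_ne_zero _ z)

theorem slash_comp_ofComplex (f : ℍ → ℂ) (γ : SL(2, ℤ)) (k : ℤ) (z : ℍ) :
    (f ∣[k] γ) ∘ ofComplex =ᶠ[𝓝 (z : ℂ)]
      (fun w : ℂ => denom γ w ^ (-k)) * ((fun u : ℍ => f (γ • u)) ∘ ofComplex) := by
  filter_upwards [eventually_im_pos z] with w hw
  simp [ModularForm.SL_slash_apply, ofComplex_apply_of_im_pos hw, mul_comm]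

theorem isMero_slash (hf : IsMero f) (γ : SL(2, ℤ)) (k : ℤ) : IsMero (f ∣[k] γ) := fun z =>
  (meromorphicNFAt_congr (slash_comp_ofComplex f γ k z)).2
    ((meromorphicNFAt_mul_iff_right (denom_analyticAt γ (-k) z)
      (zpow_ne_zero _ (denom_ne_zero _ z))).2 (isMero_comp_smul hf γ z))

end FLTAgent.ModularDiff
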