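import Mathlib
import Fermat.Agent.Modular.Defs

/-!
# Meromorphic functions on the upper half plane up to a discrete set

`MeroH f` says that `f` is meromorphic at every point, `nfH f` is its normal form and `dH f` its
derivative `d/dz`.  Equality off a discrete set (`=ᶠ[codiscrete ℍ]`) is read in `ℂ` (`codEq_iff`),
functions in normal form are determined by it (`eq_of_codEq`), orders only depend on it and `dH`
satisfies the usual rules up to it.  `NonzeroH` excludes points of infinite order.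
-/

set_option autoImplicit false

noncomputable section

open UpperHalfPlane Filter Topology
open scoped MatrixGroups ModularForm Manifold

namespace FLTAgent.ModularDiff

open FLTAgent.Modular

/-- Meromorphic on `ℍ` (no normal form required). -/
def MeroH (f : ℍ → ℂ) : Prop := ∀ z : ℍ, MeromorphicAt (f ∘ ofComplex) (z : ℂ)

/-- Normal form of a meromorphic function on `ℍ`. -/
def nfH (f : ℍ → ℂ) : ℍ → ℂ :=
  fun z => toMeromorphicNFOn (f ∘ ofComplex) {w : ℂ | 0 < w.im} (z : ℂ)

/-- The derivative `d/dz` of a function on `ℍ`. -/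
def dH (f : ℍ → ℂ) : ℍ → ℂ := fun z => deriv (f ∘ ofComplex) (z : ℂ)

variable {f g f' g' : ℍ → ℂ}

lemma comp_ofComplex_apply (f : ℍ → ℂ) (z : ℍ) : (f ∘ ofComplex) (z : ℂ) = f z := by
  simp [ofComplex_apply]

lemma eventually_im_pos (z : ℍ) : ∀ᶠ w in 𝓝 (z : ℂ), 0 < w.im :=
  isOpen_upperHalfPlaneSet.mem_nhds z.im_pos

lemma map_nhdsNE (z : ℍ) : map ((↑) : ℍ → ℂ) (𝓝[≠] z) = 𝓝[≠] (z : ℂ) := by
  rw [isOpenEmbedding_coe.isEmbedding.map_nhdsWithin_eq]
  refine le_antisymm (nhdsWithin_mono _ ?_) ?_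
  · rintro _ ⟨w, hw, rfl⟩
    simp only [Set.mem_compl_iff, Set.mem_singleton_iff] at hw ⊢
    exact fun h => hw (UpperHalfPlane.ext h)
  · refine le_of_eq_of_le (nhdsWithin_restrict' _ (isOpenEmbedding_coe.isOpen_range.mem_nhds
      (Set.mem_range_self z))) (nhdsWithin_mono _ ?_)
    rintro _ ⟨hw, w, rfl⟩
    exact ⟨w, fun h => hw (congrArg ((↑) : ℍ → ℂ) h), rfl⟩

/-- Equality off a discrete set, read in `ℂ`. -/
theorem codEq_iff : f =ᶠ[codiscrete ℍ] g ↔
    ∀ z : ℍ, f ∘ ofComplex =ᶠ[𝓝[≠] (z : ℂ)] g ∘ ofComplex := by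
  simp only [EventuallyEq, Filter.Eventually, mem_codiscrete, disjoint_principal_right, compl_compl]
  refine forall_congr' fun z => ?_
  rw [← map_nhdsNE, mem_map]
  simp [Set.preimage, ofComplex_apply]

lemma codEq_of_eq (h : ∀ z, f z = g z) : f =ᶠ[codiscrete ℍ] g := Eventually.of_forall h

namespace MeroH

theorem congr (hf : MeroH f) (h : f =ᶠ[codiscrete ℍ] g) : MeroH g :=
  fun z => (hf z).congr (codEq_iff.1 h z)

theorem const (c : ℂ) : MeroH fun _ => c := fun z => MeromorphicAt.const c (z : ℂ)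

theorem add (hf : MeroH f) (hg : MeroH g) : MeroH (f + g) := fun z => (hf z).add (hg z)

theorem mul (hf : MeroH f) (hg : MeroH g) : MeroH (f * g) := fun z => (hf z).mul (hg z)

theorem div (hf : MeroH f) (hg : MeroH g) : MeroH (f / g) := fun z => (hf z).div (hg z)

theorem inv (hf : MeroH f) : MeroH f⁻¹ := fun z => (hf z).inv

theorem dH (hf : MeroH f) : MeroH (ModularDiff.dH f) := by
  intro z
  refine (hf z).deriv.congr ?_
  filter_upwards [(eventually_im_pos z).filter_mono nhdsWithin_le_nhds] with w hw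
  simp [ModularDiff.dH, ofComplex_apply_of_im_pos hw]

theorem analyticAt_cod (hf : MeroH f) :
    ∀ᶠ z : ℍ in codiscrete ℍ, AnalyticAt ℂ (f ∘ ofComplex) (z : ℂ) := by
  rw [Filter.Eventually, mem_codiscrete]
  intro z
  rw [disjoint_principal_right, compl_compl]
  have := (hf z).eventually_analyticAt
  rw [← map_nhdsNE, eventually_map] at this
  exact this

end MeroH

theorem _root_.FLTAgent.Modular.IsMero.meroH (hf : IsMero f) : MeroH f :=
  fun z => (hf z).meromorphicAt

theorem meroH_of_mdiff (hf : MDifferentiable 𝓘(ℂ, ℂ) 𝓘(ℂ, ℂ) f) : MeroH f := fun z =>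
  (((UpperHalfPlane.mdifferentiable_iff.1 hf).analyticAt
    (isOpen_upperHalfPlaneSet.mem_nhds z.im_pos))).meromorphicAt

theorem meromorphicOn_of_meroH (hf : MeroH f) :
    MeromorphicOn (f ∘ ofComplex) {w : ℂ | 0 < w.im} := fun w hw => by
  simpa using hf ⟨w, hw⟩

theorem nfH_comp_eventuallyEq (z : ℍ) : nfH f ∘ ofComplex =ᶠ[𝓝 (z : ℂ)]
    toMeromorphicNFOn (f ∘ ofComplex) {w : ℂ | 0 < w.im} := by
  filter_upwards [eventually_im_pos z] with w hw
  simp [nfH, ofComplex_apply_of_im_pos hw]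

theorem isMero_nfH (f : ℍ → ℂ) : IsMero (nfH f) := fun z =>
  (meromorphicNFAt_congr (nfH_comp_eventuallyEq z)).2
    (meromorphicNFOn_toMeromorphicNFOn (f ∘ ofComplex) _ z.im_pos)

theorem nfH_codEq (hf : MeroH f) : nfH f =ᶠ[codiscrete ℍ] f := by
  rw [codEq_iff]
  intro z
  exact ((nfH_comp_eventuallyEq z).filter_mono nhdsWithin_le_nhds).trans
    ((meromorphicOn_of_meroH hf).toMeromorphicNFOn_eq_self_on_nhdsNE z.im_pos)

/-- Functions in normal form are determined off a discrete set. -/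
theorem eq_of_codEq (hf : IsMero f) (hg : IsMero g) (h : f =ᶠ[codiscrete ℍ] g) : f = g := by
  funext z
  have := (((hf z).eventuallyEq_nhdsNE_iff_eventuallyEq_nhds (hg z)).1
    (codEq_iff.1 h z)).eq_of_nhds
  simpa [comp_ofComplex_apply] using this

theorem meromorphicOrderAt_congr_cod (h : f =ᶠ[codiscrete ℍ] g) (z : ℍ) :
    meromorphicOrderAt (f ∘ ofComplex) (z : ℂ) = meromorphicOrderAt (g ∘ ofComplex) (z : ℂ) :=
  meromorphicOrderAt_congr (codEq_iff.1 h z)

theorem ordH_congr (h : f =ᶠ[codiscrete ℍ] g) (z : ℍ) : ordH f z = ordH g z := by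
  rw [ordH, ordH, meromorphicOrderAt_congr_cod h z]

theorem dH_congr (h : f =ᶠ[codiscrete ℍ] g) : dH f =ᶠ[codiscrete ℍ] dH g := by
  rw [codEq_iff] at h ⊢
  intro z
  have h1 := eventually_eventually_nhdsWithin.2 (h z)
  filter_upwards [h1, self_mem_nhdsWithin,
    (eventually_im_pos z).filter_mono nhdsWithin_le_nhds] with w hw hne him
  have : f ∘ ofComplex =ᶠ[𝓝 w] g ∘ ofComplex := by
    rwa [isOpen_compl_singleton.nhdsWithin_eq hne] at hw
  simpa [dH, ofComplex_apply_of_im_pos him] using this.deriv_eq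

theorem dH_mul (hf : MeroH f) (hg : MeroH g) :
    dH (f * g) =ᶠ[codiscrete ℍ] dH f * g + f * dH g := by
  filter_upwards [hf.analyticAt_cod, hg.analyticAt_cod] with z h1 h2
  have := deriv_mul h1.differentiableAt h2.differentiableAt
  simpa [dH, Pi.mul_comp, ofComplex_apply] using this

theorem dH_add (hf : MeroH f) (hg : MeroH g) :
    dH (f + g) =ᶠ[codiscrete ℍ] dH f + dH g := by
  filter_upwards [hf.analyticAt_cod, hg.analyticAt_cod] with z h1 h2
  have := deriv_add h1.differentiableAt h2.differentiableAt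
  simpa [dH, Pi.add_comp, ofComplex_apply] using this

theorem dH_const (c : ℂ) : dH (fun _ => c) = 0 := by
  funext z
  simp [dH, Function.comp_def]

/-- A function without a point of infinite order. -/
def NonzeroH (f : ℍ → ℂ) : Prop := ∀ z : ℍ, meromorphicOrderAt (f ∘ ofComplex) (z : ℂ) ≠ ⊤

theorem nonzeroH_of_exists (hf : MeroH f)
    (h : ∃ z : ℍ, meromorphicOrderAt (f ∘ ofComplex) (z : ℂ) ≠ ⊤) : NonzeroH f := by
  obtain ⟨z₀, hz₀⟩ := h
  intro z
  exact (meromorphicOn_of_meroH hf).meromorphicOrderAt_ne_top_of_isPreconnected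
    (Complex.isConnected_of_upperHalfPlane subset_rfl (fun w (hw : 0 < w.im) => show 0 ≤ w.im from hw.le)).isPreconnected
    z₀.im_pos z.im_pos hz₀

theorem NonzeroH.cod_ne_zero (h : NonzeroH f) (hf : MeroH f) :
    ∀ᶠ z : ℍ in codiscrete ℍ, f z ≠ 0 := by
  rw [Filter.Eventually, mem_codiscrete]
  intro z
  rw [disjoint_principal_right, compl_compl]
  have := (meromorphicOrderAt_ne_top_iff_eventually_ne_zero (hf z)).1 (h z)
  rw [← map_nhdsNE, eventually_map] at this
  filter_upwards [this] with w hw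
  simpa [comp_ofComplex_apply] using hw

theorem isMero_eq_zero_or_nonzeroH (hf : IsMero f) : f = 0 ∨ NonzeroH f := by
  by_cases h : ∃ z : ℍ, meromorphicOrderAt (f ∘ ofComplex) (z : ℂ) ≠ ⊤
  · exact Or.inr (nonzeroH_of_exists hf.meroH h)
  · left
    push Not at h
    refine eq_of_codEq hf (fun z => analyticAt_const.meromorphicNFAt) ?_
    rw [codEq_iff]
    intro z
    filter_upwards [meromorphicOrderAt_eq_top_iff.1 (h z)] with w hw
    simpa using hw

end FLTAgent.ModularDiff
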