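import Fermat.Agent.ModularDiff.Dict

/-!
# Cusp forms of weight two are the holomorphic differentials

`cuspEquivDiff`: the linear equivalence of `S₂(Γ₀(N))` with the differentials of `FC N` of
nonnegative order at every place, obtained from `formOf`/`diffOf` and the order dictionary;
`finrank_cuspForm_eq_genusFF`: hence the dimension of `S₂(Γ₀(N))` is the genus of `FC N`.
-/

set_option autoImplicit false

noncomputable section

open UpperHalfPlane Filter Topology ModularCurve AlgebraicCurve CongruenceSubgroup KaehlerDifferential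
open scoped MatrixGroups ModularForm Manifold

namespace FLTAgent.ModularDiff

open FLTAgent.Modular

variable {N : ℕ} [NeZero N]

theorem cuspForm_slash (f : CuspForm (Gamma0 N) 2) (γ : Gamma0 N) :
    (⇑f) ∣[(2 : ℤ)] (γ : SL(2, ℤ)) = ⇑f :=
  f.slash_action_eq' _ (Subgroup.mem_map_of_mem _ γ.2)

theorem isWForm_cuspForm (f : CuspForm (Gamma0 N) 2) : IsWForm N (⇑f) where
  meroH := meroH_of_mdiff f.holo'
  invar γ := by rw [cuspForm_slash]
  cusp γ := ⟨0, (BddC.of_isBoundedAtImInfty (IsZeroAtImInfty.isBoundedAtImInfty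
    (CuspFormClass.zero_at_infty_slash f γ))).congr (codEq_of_eq fun z => by simp [qPow_zero])⟩

variable [FF.IsFF ℂ (FC N)]

theorem formOf_diffOf_cuspForm (f : CuspForm (Gamma0 N) 2) :
    formOf (diffOf N ⇑f) = ⇑f :=
  eq_of_codEq (isMero_formOf _) (isMero_of_mdiff f.holo') (formOf_diffOf (isWForm_cuspForm f))

/-- A cusp form as a differential. -/
def cuspToDiff (N : ℕ) [NeZero N] [FF.IsFF ℂ (FC N)] :
    CuspForm (Gamma0 N) 2 →ₗ[ℂ] Ω[FC N⁄ℂ] where
  toFun f := diffOf N ⇑f
  map_add' f g := by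
    have h : quotForm N ⇑(f + g) = quotForm N ⇑f + quotForm N ⇑g := by
      refine quotForm_unique (isWForm_cuspForm _) ?_
      filter_upwards [ev_add_cod (quotForm N ⇑f) (quotForm N ⇑g),
        quotForm_spec (isWForm_cuspForm f), quotForm_spec (isWForm_cuspForm g)] with z h1 h2 h3
      simp only [Pi.mul_apply, Pi.add_apply, FunLike.coe_add] at *
      rw [h1, add_mul, h2, h3]
    simp only [diffOf, h, add_smul]
  map_smul' c f := by
    have h : quotForm N ⇑(c • f) = algebraMap ℂ (FC N) c * quotForm N ⇑f := by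
      refine quotForm_unique (isWForm_cuspForm _) ?_
      filter_upwards [ev_mul_cod (algebraMap ℂ (FC N) c) (quotForm N ⇑f),
        quotForm_spec (isWForm_cuspForm f)] with z h1 h2
      simp only [ev_algebraMap_eq, Pi.mul_apply] at *
      rw [h1, mul_assoc, h2]
      simp
    simp only [diffOf, h, RingHom.id_apply, mul_smul, algebraMap_smul]

theorem formOf_cuspToDiff (f : CuspForm (Gamma0 N) 2) : formOf (cuspToDiff N f) = ⇑f :=
  formOf_diffOf_cuspForm f

theorem cuspToDiff_injective : Function.Injective (cuspToDiff N) := fun f g h =>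
  DFunLike.ext' (by rw [← formOf_cuspToDiff f, h, formOf_cuspToDiff g])

theorem cuspToDiff_holomorphic (f : CuspForm (Gamma0 N) 2) (hω : cuspToDiff N f ≠ 0)
    (v : Place ℂ (FC N)) : 0 ≤ v.ordDifferential (cuspToDiff N f) := by
  rcases place_exhaustive v with ⟨z, rfl⟩ | ⟨γ, rfl⟩
  · have h := meromorphicOrderAt_formOf hω z
    rw [formOf_cuspToDiff] at h
    have hnn : 0 ≤ meromorphicOrderAt ((⇑f) ∘ ofComplex) (z : ℂ) :=
      ((UpperHalfPlane.mdifferentiable_iff.1 f.holo').analyticAt
        (isOpen_upperHalfPlaneSet.mem_nhds z.im_pos)).meromorphicOrderAt_nonneg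
    rw [h, ← WithTop.coe_zero, WithTop.coe_le_coe] at hnn
    by_contra hneg
    have : (ellOrder N z : ℤ) * ((placeOf z : Place ℂ (FC N)).ordDifferential (cuspToDiff N f) + 1)
        ≤ 0 := mul_nonpos_of_nonneg_of_nonpos (Int.natCast_nonneg _) (by omega)
    linarith
  · obtain ⟨c, hc, hlim⟩ := tendsto_formOf_slash hω γ
    rw [formOf_cuspToDiff] at hlim
    by_contra hneg
    have hz := (CuspFormClass.zero_at_infty_slash f γ : IsZeroAtImInfty _)
    have hb := isBoundedAtImInfty_qPow (h := (cuspWidth N γ : ℝ))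
      (by exact_mod_cast cuspWidth_pos N γ)
      (k := -((cuspPlace γ : Place ℂ (FC N)).ordDifferential (cuspToDiff N f) + 1)) (by omega)
    refine hc (tendsto_nhds_unique hlim ?_)
    have hz' : Tendsto ((⇑f) ∣[(2 : ℤ)] γ) atImInfty (𝓝 0) := hz
    refine hz'.zero_mul_isBoundedUnder_le (isBoundedUnder_of_eventually_le
      (a := (isBoundedAtImInfty_iff.1 hb).choose) ?_)
    obtain ⟨A, hA⟩ := (isBoundedAtImInfty_iff.1 hb).choose_spec
    rw [Filter.Eventually, atImInfty_mem]
    exact ⟨A, fun z hz => hA z hz⟩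

theorem analyticAt_formOf {ω : Ω[FC N⁄ℂ]}
    (hω : ω ≠ 0 → ∀ v : Place ℂ (FC N), 0 ≤ v.ordDifferential ω) (z : ℍ) :
    AnalyticAt ℂ (formOf ω ∘ ofComplex) (z : ℂ) := by
  rw [← (isMero_formOf ω z).meromorphicOrderAt_nonneg_iff_analyticAt]
  rcases eq_or_ne ω 0 with rfl | h0
  · have : formOf (0 : Ω[FC N⁄ℂ]) =ᶠ[codiscrete ℍ] fun _ => (0 : ℂ) := by
      filter_upwards [formOf_cod (0 : Ω[FC N⁄ℂ])] with w hw
      have h1 : ev ((0 : FC N) : LaurentSeries ℂ) = fun _ => (0 : ℂ) := by
        simpa using ev_algebraMap_eq (N := N) 0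
      rw [hw, map_zero, h1, Pi.mul_apply, zero_mul]
    rw [meromorphicOrderAt_congr_cod this z]
    exact (analyticAt_const (v := (0 : ℂ))).meromorphicOrderAt_nonneg
  · rw [meromorphicOrderAt_formOf h0 z, ← WithTop.coe_zero, WithTop.coe_le_coe]
    have := mul_le_mul_of_nonneg_left (show (1 : ℤ) ≤ (placeOf z : Place ℂ (FC N)).ordDifferential ω
      + 1 by linarith [hω h0 (placeOf z)]) (Int.natCast_nonneg (ellOrder N z))
    have he : (1 : ℤ) ≤ ellOrder N z := by exact_mod_cast ellOrder_pos z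
    linarith

/-- A holomorphic differential as a cusp form. -/
def diffToCusp (ω : Ω[FC N⁄ℂ]) (hω : ω ≠ 0 → ∀ v : Place ℂ (FC N), 0 ≤ v.ordDifferential ω) :
    CuspForm (Gamma0 N) 2 where
  toFun := formOf ω
  slash_action_eq' := by
    rintro _ ⟨γ, hγ, rfl⟩
    exact eq_of_codEq (isMero_slash (isMero_formOf ω) γ 2) (isMero_formOf ω)
      ((isWForm_formOf ω).invar ⟨γ, hγ⟩)
  holo' := by
    rw [UpperHalfPlane.mdifferentiable_iff]
    exact fun w hw =>
      (analyticAt_formOf hω ⟨w, hw⟩).differentiableAt.differentiableWithinAt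
  zero_at_cusps' := by
    intro c hc
    rw [Subgroup.IsArithmetic.isCusp_iff_isCusp_SL2Z] at hc
    rw [OnePoint.isZeroAt_iff_forall_SL2Z hc]
    intro γ _
    show Tendsto (formOf ω ∣[(2 : ℤ)] γ) atImInfty (𝓝 0)
    rcases eq_or_ne ω 0 with rfl | h0
    · have : formOf (0 : Ω[FC N⁄ℂ]) ∣[(2 : ℤ)] γ = fun _ => (0 : ℂ) := by
        refine eq_of_codEq (isMero_slash (isMero_formOf _) γ 2)
          (fun z => analyticAt_const.meromorphicNFAt) ?_
        refine (codEq_slash (formOf_cod _) γ 2).trans (codEq_of_eq fun z => ?_)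
        have h1 : ev ((0 : FC N) : LaurentSeries ℂ) = fun _ => (0 : ℂ) := by
          simpa using ev_algebraMap_eq (N := N) 0
        rw [map_zero, h1, ModularForm.SL_slash_apply, Pi.mul_apply, zero_mul, zero_mul]
      rw [this]
      exact tendsto_const_nhds
    · obtain ⟨c, -, hlim⟩ := tendsto_formOf_slash h0 γ
      have hq := tendsto_qPow (h := (cuspWidth N γ : ℝ)) (by exact_mod_cast cuspWidth_pos N γ)
        (k := (cuspPlace γ : Place ℂ (FC N)).ordDifferential ω + 1)
        (by linarith [hω h0 (cuspPlace γ)])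
      have := hlim.mul hq
      rw [mul_zero] at this
      refine this.congr fun z => ?_
      rw [mul_assoc, ← qPow_add, neg_add_cancel, qPow_zero, mul_one]

theorem cuspToDiff_diffToCusp (ω : Ω[FC N⁄ℂ])
    (hω : ω ≠ 0 → ∀ v : Place ℂ (FC N), 0 ≤ v.ordDifferential ω) :
    cuspToDiff N (diffToCusp ω hω) = ω := diffOf_formOf ω

theorem range_cuspToDiff :
    LinearMap.range (cuspToDiff N) = FF.differentialsGE (0 : Divisor ℂ (FC N)) := by
  ext ω
  rw [LinearMap.mem_range, FF.mem_differentialsGE_iff]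
  constructor
  · rintro ⟨f, rfl⟩
    by_cases h : cuspToDiff N f = 0
    · exact Or.inl h
    · exact Or.inr fun v => cuspToDiff_holomorphic f h v
  · intro h
    exact ⟨diffToCusp ω fun h0 v => h.resolve_left h0 v, cuspToDiff_diffToCusp _ _⟩

/-- Cusp forms of weight two are the holomorphic differentials. -/
def cuspEquivDiff (N : ℕ) [NeZero N] [FF.IsFF ℂ (FC N)] :
    CuspForm (Gamma0 N) 2 ≃ₗ[ℂ] ↥(FF.differentialsGE (0 : Divisor ℂ (FC N))) :=
  (LinearEquiv.ofInjective (cuspToDiff N) cuspToDiff_injective).trans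
    (LinearEquiv.ofEq _ _ range_cuspToDiff)

/-- The dimension of the space of weight two cusp forms is the genus of the function field. -/
theorem finrank_cuspForm_eq_genusFF :
    Module.finrank ℂ (CuspForm (Gamma0 N) 2) = genusFF ℂ (FC N) := by
  rw [(cuspEquivDiff N).finrank_eq, FF.finrank_differentialsGE_zero]

end FLTAgent.ModularDiff
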