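import Fermat.Agent.ModularDiff.WForm
import Fermat.Agent.FF.Differentials

/-!
# The dictionary between differentials and forms of weight two

`formOf` sends a Kähler differential `ω` of `FC N` to the form `(ω / dj) dj/dz`, and `diffOf` is
the inverse on forms (`diffOf_formOf`, `formOf_diffOf`).  The orders correspond:
`meromorphicOrderAt_formOf` at a point of `ℍ` (with the elliptic order) and `tendsto_formOf_slash`
at the cusps.
-/

set_option autoImplicit false

noncomputable section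

open UpperHalfPlane Filter Topology ModularCurve AlgebraicCurve CongruenceSubgroup KaehlerDifferential
open scoped MatrixGroups ModularForm Manifold

namespace FLTAgent.ModularDiff

open FLTAgent.Modular

variable {N : ℕ} [NeZero N] {F G : ℍ → ℂ}

theorem ext_of_codEq {y y' : FC N}
    (h : ev (y : LaurentSeries ℂ) =ᶠ[codiscrete ℍ] ev (y' : LaurentSeries ℂ)) : y = y' :=
  ev_injective (eq_of_codEq (ev_spec y).1.mero (ev_spec y').1.mero h)

open Classical in
/-- The element `G / (dj/dz)` of the function field. -/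
def quotForm (N : ℕ) [NeZero N] (G : ℍ → ℂ) : FC N :=
  if h : IsWForm N G then (exists_eq_ev (N := N) (f := nfH (G / djH N)) h.isModFun_div).choose else 0

theorem quotForm_spec (hG : IsWForm N G) :
    ev ((quotForm N G : FC N) : LaurentSeries ℂ) * djH N =ᶠ[codiscrete ℍ] G := by
  have h : ev ((quotForm N G : FC N) : LaurentSeries ℂ) = nfH (G / djH N) := by
    rw [quotForm, dif_pos hG]; exact (exists_eq_ev hG.isModFun_div).choose_spec
  rw [h]
  filter_upwards [nfH_codEq (hG.meroH.div (isMero_djH (N := N)).meroH),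
    (nonzeroH_djH (N := N)).cod_ne_zero isMero_djH.meroH] with z h1 h2
  rw [Pi.mul_apply, h1, Pi.div_apply, div_mul_cancel₀ _ h2]

theorem quotForm_unique (hG : IsWForm N G) {y : FC N}
    (h : ev (y : LaurentSeries ℂ) * djH N =ᶠ[codiscrete ℍ] G) : quotForm N G = y := by
  refine ext_of_codEq ?_
  filter_upwards [quotForm_spec hG, h,
    (nonzeroH_djH (N := N)).cod_ne_zero isMero_djH.meroH] with z h1 h2 h3
  exact mul_right_cancel₀ h3 (h1.trans h2.symm)

/-- The derivation `d/dj` of the function field. -/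
def derivJ (N : ℕ) [NeZero N] : Derivation ℂ (FC N) (FC N) :=
  Derivation.mk'
    { toFun := fun y => quotForm N (dH (ev (y : LaurentSeries ℂ)))
      map_add' := fun y y' => by
        refine quotForm_unique (isWForm_dH_ev _) ?_
        filter_upwards [ev_add_cod (quotForm N (dH (ev (y : LaurentSeries ℂ))))
          (quotForm N (dH (ev (y' : LaurentSeries ℂ)))), quotForm_spec (isWForm_dH_ev y),
          quotForm_spec (isWForm_dH_ev y'), dH_congr (ev_add_cod y y'),
          dH_add (ev_spec y).1.mero.meroH (ev_spec y').1.mero.meroH] with z h1 h2 h3 h4 h5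
        simp only [Pi.mul_apply, Pi.add_apply] at *
        rw [h1, h4, h5, add_mul, h2, h3]
      map_smul' := fun c y => by
        refine quotForm_unique (isWForm_dH_ev _) ?_
        simp only [RingHom.id_apply, Algebra.smul_def]
        filter_upwards [ev_mul_cod (algebraMap ℂ (FC N) c)
          (quotForm N (dH (ev (y : LaurentSeries ℂ)))), quotForm_spec (isWForm_dH_ev y),
          dH_congr (ev_mul_cod (algebraMap ℂ (FC N) c) y),
          dH_mul (f := fun _ => c) (MeroH.const c) (ev_spec y).1.mero.meroH] with z h1 h2 h3 h4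
        simp only [ev_algebraMap_eq] at h1 h3
        simp only [Pi.mul_apply, Pi.add_apply, dH_const, Pi.zero_apply] at *
        rw [h1, h3, h4, mul_assoc, h2]
        ring }
    (fun a b => by
      refine quotForm_unique (isWForm_dH_ev _) ?_
      simp only [LinearMap.coe_mk, AddHom.coe_mk, smul_eq_mul]
      filter_upwards [ev_add_cod (a * quotForm N (dH (ev (b : LaurentSeries ℂ))))
        (b * quotForm N (dH (ev (a : LaurentSeries ℂ)))),
        ev_mul_cod a (quotForm N (dH (ev (b : LaurentSeries ℂ)))),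
        ev_mul_cod b (quotForm N (dH (ev (a : LaurentSeries ℂ)))),
        quotForm_spec (isWForm_dH_ev a), quotForm_spec (isWForm_dH_ev b),
        dH_congr (ev_mul_cod a b),
        dH_mul (ev_spec a).1.mero.meroH (ev_spec b).1.mero.meroH] with z h1 h2 h3 h4 h5 h6 h7
      simp only [Pi.mul_apply, Pi.add_apply] at *
      rw [h1, h2, h3, h6, h7, add_mul, mul_assoc, mul_assoc, h4, h5]
      ring)

theorem derivJ_apply (y : FC N) : derivJ N y = quotForm N (dH (ev (y : LaurentSeries ℂ))) := rfl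

theorem derivJ_jFC : derivJ N (jFC N) = 1 := by
  refine quotForm_unique (isWForm_dH_ev _) ?_
  refine codEq_of_eq fun z => ?_
  have : ev ((1 : FC N) : LaurentSeries ℂ) = fun _ => (1 : ℂ) := by
    simpa using ev_algebraMap_eq (N := N) 1
  simp only [Pi.mul_apply, this, djH, one_mul]

/-- `ω / dj` for a differential `ω`. -/
def coeffJ (N : ℕ) [NeZero N] : Ω[FC N⁄ℂ] →ₗ[FC N] FC N := (derivJ N).liftKaehlerDifferential

@[simp] theorem coeffJ_D (y : FC N) : coeffJ N (KaehlerDifferential.D ℂ (FC N) y) = derivJ N y :=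
  (derivJ N).liftKaehlerDifferential_comp_D y

theorem coeffJ_smul_D_jFC (y : FC N) :
    coeffJ N (y • KaehlerDifferential.D ℂ (FC N) (jFC N)) = y := by
  simp [derivJ_jFC]

/-- The weight two form of a differential. -/
def formOf (ω : Ω[FC N⁄ℂ]) : ℍ → ℂ :=
  nfH (ev ((coeffJ N ω : FC N) : LaurentSeries ℂ) * djH N)

theorem isMero_formOf (ω : Ω[FC N⁄ℂ]) : IsMero (formOf ω) := isMero_nfH _

theorem formOf_cod (ω : Ω[FC N⁄ℂ]) :
    formOf ω =ᶠ[codiscrete ℍ] ev ((coeffJ N ω : FC N) : LaurentSeries ℂ) * djH N :=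
  nfH_codEq ((ev_spec _).1.mero.meroH.mul isMero_djH.meroH)

theorem isWForm_djH : IsWForm N (djH N) := isWForm_dH_ev (jFC N)

theorem isWForm_formOf (ω : Ω[FC N⁄ℂ]) : IsWForm N (formOf ω) :=
  (isWForm_djH.ev_mul _).congr (formOf_cod ω).symm

theorem formOf_D (y : FC N) :
    formOf (KaehlerDifferential.D ℂ (FC N) y) =ᶠ[codiscrete ℍ] dH (ev (y : LaurentSeries ℂ)) := by
  refine (formOf_cod _).trans ?_
  rw [coeffJ_D, derivJ_apply]
  exact quotForm_spec (isWForm_dH_ev y)

theorem formOf_smul (y : FC N) (ω : Ω[FC N⁄ℂ]) :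
    formOf (y • ω) =ᶠ[codiscrete ℍ] ev (y : LaurentSeries ℂ) * formOf ω := by
  filter_upwards [formOf_cod (y • ω), formOf_cod ω, ev_mul_cod y (coeffJ N ω)] with z h1 h2 h3
  rw [map_smul, smul_eq_mul] at h1
  simp only [Pi.mul_apply] at *
  rw [h1, h3, h2, mul_assoc]

/-- The differential of a weight two form. -/
def diffOf (N : ℕ) [NeZero N] (G : ℍ → ℂ) : Ω[FC N⁄ℂ] :=
  quotForm N G • KaehlerDifferential.D ℂ (FC N) (jFC N)

theorem formOf_diffOf (hG : IsWForm N G) : formOf (diffOf N G) =ᶠ[codiscrete ℍ] G := by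
  refine (formOf_cod _).trans ?_
  rw [diffOf, coeffJ_smul_D_jFC]
  exact quotForm_spec hG

theorem diffOf_congr (hG : IsWForm N G) (h : G =ᶠ[codiscrete ℍ] F) : diffOf N G = diffOf N F := by
  rw [diffOf, diffOf, quotForm_unique hG ((quotForm_spec (hG.congr h)).trans h.symm)]

variable [FF.IsFF ℂ (FC N)]

theorem coeffJ_injective : Function.Injective (coeffJ N) := by
  have hj : KaehlerDifferential.D ℂ (FC N) (jFC N) ≠ 0 := fun h => by
    simpa [h] using coeffJ_smul_D_jFC (N := N) 1
  refine LinearMap.ker_eq_bot.1 (eq_bot_iff.2 fun ω hω => ?_)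
  obtain ⟨c, rfl⟩ := (finrank_eq_one_iff_of_nonzero' _ hj).1 FF.finrank_kaehler_eq_one ω
  rw [LinearMap.mem_ker, coeffJ_smul_D_jFC] at hω
  simp [hω]

theorem diffOf_formOf (ω : Ω[FC N⁄ℂ]) : diffOf N (formOf ω) = ω := by
  refine coeffJ_injective ?_
  rw [diffOf, coeffJ_smul_D_jFC]
  exact quotForm_unique (isWForm_formOf ω) (formOf_cod ω).symm

theorem formOf_injective : Function.Injective (formOf (N := N)) :=
  Function.LeftInverse.injective diffOf_formOf

theorem nonzeroH_ev {y : FC N} (hy : y ≠ 0) : NonzeroH (ev (y : LaurentSeries ℂ)) := by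
  refine (isMero_eq_zero_or_nonzeroH (ev_spec y).1.mero).resolve_left fun h => hy ?_
  refine ev_injective (h.trans ?_)
  simpa [Pi.zero_def] using (ev_algebraMap_eq (N := N) 0).symm

theorem meromorphicOrderAt_ev {y : FC N} (hy : y ≠ 0) (z : ℍ) :
    meromorphicOrderAt (ev (y : LaurentSeries ℂ) ∘ ofComplex) (z : ℂ) =
      (((ellOrder N z : ℤ) * (placeOf z : Place ℂ (FC N)).ord y : ℤ) : WithTop ℤ) := by
  rw [ord_placeOf z hy, ordH, WithTop.coe_untop₀_of_ne_top (nonzeroH_ev hy z)]

theorem ellOrder_pos (z : ℍ) : 0 < ellOrder N z := by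
  by_contra h
  have h0 : ellOrder N z = 0 := by omega
  set c : ℂ := ev (jFC N : LaurentSeries ℂ) z
  set y : FC N := jFC N + algebraMap ℂ (FC N) (-c) with hy
  have hy0 : y ≠ 0 := by
    intro h1
    have h2 : derivJ N y = 1 := by
      rw [hy, map_add, derivJ_jFC, Derivation.map_algebraMap, add_zero]
    rw [h1, map_zero] at h2
    exact zero_ne_one h2
  have hev : ev (y : LaurentSeries ℂ) = fun w => ev (jFC N : LaurentSeries ℂ) w + -c := by
    refine eq_of_codEq (ev_spec y).1.mero ?_ ?_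
    · exact fun w => (((UpperHalfPlane.mdifferentiable_iff.1 (mdiff_ev_jFC (N := N))).analyticAt
        (isOpen_upperHalfPlaneSet.mem_nhds w.im_pos)).add analyticAt_const).meromorphicNFAt
    · refine (ev_add_cod _ _).trans ?_
      rw [ev_algebraMap_eq]
      rfl
  have h1 := meromorphicOrderAt_ev hy0 z
  rw [h0, Nat.cast_zero, zero_mul, WithTop.coe_zero,
    ((ev_spec y).1.mero z).meromorphicOrderAt_eq_zero_iff, comp_ofComplex_apply, hev] at h1
  simp [c] at h1

theorem exists_uniformizer (v : Place ℂ (FC N)) :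
    ∃ t : FC N, v.ord t = 1 ∧ t ≠ 0 ∧ v.dCoord = KaehlerDifferential.D ℂ (FC N) t := by
  have hπ := (IsDiscreteValuationRing.exists_irreducible v.toValuationSubring).choose_spec
  refine ⟨_, v.ord_coe_irreducible hπ, fun h => ?_, rfl⟩
  have := v.ord_coe_irreducible hπ
  rw [h, Place.ord_zero] at this
  exact zero_ne_one this

/-- The coefficient and local parameter of a differential at a place. -/
theorem exists_local_expr (v : Place ℂ (FC N)) {ω : Ω[FC N⁄ℂ]} (hω : ω ≠ 0) :
    ∃ g t : FC N, g ≠ 0 ∧ t ≠ 0 ∧ v.ord t = 1 ∧ v.ordDifferential ω = v.ord g ∧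
      ω = g • KaehlerDifferential.D ℂ (FC N) t := by
  obtain ⟨t, h1, h2, h3⟩ := exists_uniformizer v
  refine ⟨v.differentialCoeff ω, t, FF.differentialCoeff_ne_zero v hω, h2, h1, rfl, ?_⟩
  rw [← h3, v.differentialCoeff_smul_dCoord]

/-- Order dictionary at a point of `ℍ`. -/
theorem meromorphicOrderAt_formOf {ω : Ω[FC N⁄ℂ]} (hω : ω ≠ 0) (z : ℍ) :
    meromorphicOrderAt (formOf ω ∘ ofComplex) (z : ℂ) = (((ellOrder N z : ℤ) *
      ((placeOf z : Place ℂ (FC N)).ordDifferential ω + 1) - 1 : ℤ) : WithTop ℤ) := by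
  obtain ⟨g, t, hg, ht, hord, hω', rfl⟩ := exists_local_expr (placeOf z) hω
  rw [hω']
  have he := ellOrder_pos (N := N) z
  have h1 : formOf (g • KaehlerDifferential.D ℂ (FC N) t) =ᶠ[codiscrete ℍ]
      ev (g : LaurentSeries ℂ) * dH (ev (t : LaurentSeries ℂ)) :=
    (formOf_smul g _).trans (EventuallyEq.mul (EventuallyEq.refl _ _) (formOf_D t))
  rw [meromorphicOrderAt_congr_cod h1 z, show (ev (g : LaurentSeries ℂ) *
    dH (ev (t : LaurentSeries ℂ))) ∘ ofComplex = (ev (g : LaurentSeries ℂ) ∘ ofComplex) *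
      (dH (ev (t : LaurentSeries ℂ)) ∘ ofComplex) from rfl,
    meromorphicOrderAt_mul ((ev_spec g).1.mero z).meromorphicAt ((ev_spec t).1.mero.meroH.dH z),
    meromorphicOrderAt_ev hg]
  have h2 : dH (ev (t : LaurentSeries ℂ)) ∘ ofComplex =ᶠ[𝓝[≠] (z : ℂ)]
      deriv (ev (t : LaurentSeries ℂ) ∘ ofComplex) := by
    filter_upwards [(eventually_im_pos z).filter_mono nhdsWithin_le_nhds] with w hw
    simp [dH, ofComplex_apply_of_im_pos hw]
  have h3 := meromorphicOrderAt_ev ht z
  rw [hord, mul_one] at h3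
  rw [meromorphicOrderAt_congr h2,
    meromorphicOrderAt_deriv_eq_sub_one (n := (ellOrder N z : ℤ)) ?_ h3, ← WithTop.coe_add]
  · congr 1; ring
  · exact_mod_cast he.ne'

theorem ordH_formOf {ω : Ω[FC N⁄ℂ]} (hω : ω ≠ 0) (z : ℍ) :
    ordH (formOf ω) z = (ellOrder N z : ℤ) *
      ((placeOf z : Place ℂ (FC N)).ordDifferential ω + 1) - 1 := by
  rw [ordH, meromorphicOrderAt_formOf hω z, WithTop.untop₀_coe]

/-- Order dictionary at a cusp. -/
theorem tendsto_formOf_slash {ω : Ω[FC N⁄ℂ]} (hω : ω ≠ 0) (γ : SL(2, ℤ)) :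
    ∃ c : ℂ, c ≠ 0 ∧ Tendsto (fun z => (formOf ω ∣[(2 : ℤ)] γ) z * qPow (cuspWidth N γ : ℝ)
      (-((cuspPlace γ : Place ℂ (FC N)).ordDifferential ω + 1)) z) atImInfty (𝓝 c) := by
  obtain ⟨g, t, hg, ht, hord, hω', rfl⟩ := exists_local_expr (cuspPlace γ) hω
  rw [hω']
  obtain ⟨cg, hcg, hG⟩ := ord_cuspPlace γ hg
  obtain ⟨ct, hct, hT⟩ := ord_cuspPlace γ ht
  rw [hord] at hT
  set h : ℝ := (cuspWidth N γ : ℝ) with hh
  have hh0 : (h : ℂ) ≠ 0 := by
    rw [hh]; exact_mod_cast (cuspWidth_pos N γ).ne'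
  have hTm : IsMero fun z => ev (t : LaurentSeries ℂ) (γ • z) :=
    isMero_comp_smul (ev_spec t).1.mero γ
  have hGm : IsMero fun z => ev (g : LaurentSeries ℂ) (γ • z) :=
    isMero_comp_smul (ev_spec g).1.mero γ
  have hT' := tendsto_dH hTm hT
  refine ⟨cg * (2 * Real.pi * Complex.I * (1 : ℤ) / h * ct), mul_ne_zero hcg (mul_ne_zero
    (div_ne_zero (mul_ne_zero (mul_ne_zero (mul_ne_zero two_ne_zero
      (Complex.ofReal_ne_zero.2 Real.pi_ne_zero)) Complex.I_ne_zero) (by simp)) hh0) hct), ?_⟩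
  refine Tendsto.congr' ?_ (hG.mul hT')
  have h1 : formOf (g • KaehlerDifferential.D ℂ (FC N) t) ∣[(2 : ℤ)] γ =ᶠ[codiscrete ℍ]
      (fun z => ev (g : LaurentSeries ℂ) (γ • z)) *
        dH (fun z => ev (t : LaurentSeries ℂ) (γ • z)) := by
    refine (codEq_slash ((formOf_smul g _).trans
      (EventuallyEq.mul (EventuallyEq.refl _ _) (formOf_D t))) γ 2).trans ?_
    filter_upwards [dH_comp_smul (ev_spec t).1.mero.meroH γ] with z hz
    rw [Pi.mul_apply, hz, ModularForm.SL_slash_apply, ModularForm.SL_slash_apply, Pi.mul_apply,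
      mul_assoc]
  filter_upwards [eventually_analyticAt_of_tendsto hGm hG,
    eventually_analyticAt_of_tendsto hTm hT] with z ha hb
  have hb' : AnalyticAt ℂ (dH (fun z => ev (t : LaurentSeries ℂ) (γ • z)) ∘ ofComplex) (z : ℂ) := by
    refine hb.deriv.congr ?_
    filter_upwards [eventually_im_pos z] with w hw
    simp [dH, ofComplex_apply_of_im_pos hw]
  have := (((isMero_slash (isMero_formOf (g • KaehlerDifferential.D ℂ (FC N) t)) γ 2 z
    ).eventuallyEq_nhdsNE_iff_eventuallyEq_nhds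
      (g := ((fun z => ev (g : LaurentSeries ℂ) (γ • z)) *
        dH (fun z => ev (t : LaurentSeries ℂ) (γ • z))) ∘ ofComplex)
      (ha.mul hb').meromorphicNFAt).1 (codEq_iff.1 h1 z)).eq_of_nhds
  simp only [comp_ofComplex_apply, Pi.mul_apply] at this
  rw [this, neg_add, qPow_add]
  ring

end FLTAgent.ModularDiff
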