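import Fermat.Agent.ModularDiff.Asymp
import Fermat.Agent.Modular.API
import Fermat.Agent.Modular.JFun
import Fermat.Agent.ModularPlaces.CuspOrders

/-!
# The evaluation map and `j` on the function field

`jFC N` is `j` as an element of the function field `FC N`.  Recorded here: the evaluation `ev` is
additive and multiplicative off a discrete set, `ev (jFC N) = jFun` is invariant under `SL(2, ℤ)`
with `j q → 1` at `i∞`, and cusp widths are positive.  These are consequences of `Modular.API` in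
the form used by the dictionary between differentials and forms.
-/

set_option autoImplicit false

noncomputable section

open UpperHalfPlane Filter Topology ModularCurve AlgebraicCurve CongruenceSubgroup
open scoped MatrixGroups Manifold

namespace FLTAgent.ModularDiff

open FLTAgent.Modular

variable {N : ℕ} [NeZero N]

/-- `j` as an element of `FC N`. -/
def jFC (N : ℕ) [NeZero N] : FC N :=
  ⟨coeffEmb ℂ jq, coeffEmb_mem_laurentBaseChange ℂ (modularFunctionField_le_full N (jq_mem N))⟩

theorem ev_eq_of_codEq_hasQExp {y : LaurentSeries ℂ} {g : ℍ → ℂ} (hg : MeroH g)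
    (h : HasQExp 1 g y) : ev y =ᶠ[codiscrete ℍ] g := by
  have hr : IsMeroRaw g := meromorphicOn_of_meroH hg
  rw [ev_eq_of_isMero (FLTAgent.Modular.isMero_nfH hr) (h.nfH one_pos), codEq_iff]
  exact FLTAgent.Modular.nfH_eventuallyEq hr

theorem ev_add_cod (y y' : FC N) :
    ev ((y + y' : FC N) : LaurentSeries ℂ) =ᶠ[codiscrete ℍ]
      ev (y : LaurentSeries ℂ) + ev (y' : LaurentSeries ℂ) := by
  rw [IntermediateField.coe_add]
  exact ev_eq_of_codEq_hasQExp ((ev_spec y).1.mero.meroH.add (ev_spec y').1.mero.meroH)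
    ((ev_spec y).2.add (ev_spec y').2)

theorem ev_mul_cod (y y' : FC N) :
    ev ((y * y' : FC N) : LaurentSeries ℂ) =ᶠ[codiscrete ℍ]
      ev (y : LaurentSeries ℂ) * ev (y' : LaurentSeries ℂ) := by
  rw [IntermediateField.coe_mul]
  exact ev_eq_of_codEq_hasQExp ((ev_spec y).1.mero.meroH.mul (ev_spec y').1.mero.meroH)
    ((ev_spec y).2.mul (ev_spec y').2)

theorem ev_algebraMap_eq (c : ℂ) :
    ev ((algebraMap ℂ (FC N) c : FC N) : LaurentSeries ℂ) = fun _ => c :=
  ev_eq_of_isMero (isMero_const c) (hasQExp_const 1 c)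

theorem ev_jFC : ev (jFC N : LaurentSeries ℂ) = jFun :=
  ev_eq_of_isMero isMero_jFun hasQExp_jFun

theorem mdiff_ev_jFC :
    MDifferentiable 𝓘(ℂ, ℂ) 𝓘(ℂ, ℂ) (ev (jFC N : LaurentSeries ℂ)) := by
  rw [ev_jFC, UpperHalfPlane.mdifferentiable_iff]
  exact differentiableOn_jFun

theorem ev_jFC_smul (γ : SL(2, ℤ)) (z : ℍ) :
    ev (jFC N : LaurentSeries ℂ) (γ • z) = ev (jFC N : LaurentSeries ℂ) z := by
  rw [ev_jFC, jFun_smul]

theorem tendsto_ev_jFC :
    Tendsto (fun z => ev (jFC N : LaurentSeries ℂ) z * qPow 1 1 z) atImInfty (𝓝 1) := by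
  have h := hasQExp_jFun.tendsto_leading one_pos (m := -1) fun k hk => by
    simp [coeffEmb, coeffMap_coeff, coeff_jq_of_lt hk]
  rw [neg_neg, ← ev_jFC (N := N)] at h
  simpa [coeffEmb, coeffMap_coeff] using h

theorem cuspWidth_pos (N : ℕ) [NeZero N] (γ : SL(2, ℤ)) : 0 < cuspWidth N γ :=
  (ModularPlaces.cuspWidth_spec γ).1

end FLTAgent.ModularDiff
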