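import Fermat.Agent.ModularDiff.Inputs

/-!
# Meromorphic forms of weight two and their quotients by `dj`

`IsWForm N G` says that `G` is a meromorphic form of weight two for `Γ₀(N)` up to equality off a
discrete set, with bounded growth at the cusps.  `djH N = dj/dz` is such a form, never identically
zero (`nonzeroH_djH`); `IsWForm.isModFun_div`: the quotient by it is a modular function;
`isWForm_dH_ev`, `IsWForm.ev_mul`: derivatives of modular functions and their multiples are forms.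
-/

set_option autoImplicit false

noncomputable section

open UpperHalfPlane Filter Topology ModularCurve AlgebraicCurve CongruenceSubgroup
open scoped MatrixGroups ModularForm Manifold

namespace FLTAgent.ModularDiff

open FLTAgent.Modular

variable {N : ℕ} [NeZero N] {F G : ℍ → ℂ}

/-- Bounded high up, off a discrete set. -/
def BddC (G : ℍ → ℂ) : Prop :=
  ∃ C A : ℝ, ∀ᶠ z : ℍ in codiscrete ℍ, A ≤ z.im → ‖G z‖ ≤ C

theorem BddC.congr (h : BddC F) (hFG : F =ᶠ[codiscrete ℍ] G) : BddC G := by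
  obtain ⟨C, A, h⟩ := h
  exact ⟨C, A, by filter_upwards [h, hFG] with z h1 h2 h3; exact h2 ▸ h1 h3⟩

theorem BddC.of_isBoundedAtImInfty (h : IsBoundedAtImInfty F) : BddC F := by
  obtain ⟨C, A, h⟩ := UpperHalfPlane.isBoundedAtImInfty_iff.1 h
  exact ⟨C, A, Eventually.of_forall fun z hz => h z hz⟩

theorem BddC.mul (h : BddC F) (h' : BddC G) : BddC (F * G) := by
  obtain ⟨C, A, h⟩ := h
  obtain ⟨C', A', h'⟩ := h'
  refine ⟨|C| * |C'|, max A A', ?_⟩
  filter_upwards [h, h'] with z h1 h2 h3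
  have h4 := (h1 ((le_max_left _ _).trans h3)).trans (le_abs_self C)
  have h5 := (h2 ((le_max_right _ _).trans h3)).trans (le_abs_self C')
  simpa using mul_le_mul h4 h5 (norm_nonneg _) (abs_nonneg _)

theorem isBoundedAtImInfty_of_tendsto {c : ℂ} (h : Tendsto F atImInfty (𝓝 c)) :
    IsBoundedAtImInfty F :=
  (show (F =O[atImInfty] (1 : ℍ → ℝ)) from h.isBigO_one ℝ)

/-- A function in normal form which is bounded off a discrete set is bounded. -/
theorem BddC.isBoundedAtImInfty (h : BddC F) (hF : IsMero F) : IsBoundedAtImInfty F := by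
  obtain ⟨C, A, h⟩ := h
  refine UpperHalfPlane.isBoundedAtImInfty_iff.2 ⟨C, A + 1, fun z hz => ?_⟩
  rw [Filter.Eventually, mem_codiscrete] at h
  have h1 := h z
  rw [disjoint_principal_right, compl_compl] at h1
  have h2 : ∀ᶠ w in 𝓝[≠] (z : ℂ), ‖(F ∘ ofComplex) w‖ ≤ C := by
    rw [← map_nhdsNE, eventually_map]
    have h3 : ∀ᶠ w : ℍ in 𝓝[≠] z, A < w.im :=
      ((isOpen_lt continuous_const UpperHalfPlane.continuous_im).mem_nhds
        (show A < z.im by linarith)) |> mem_nhdsWithin_of_mem_nhds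
    filter_upwards [h1, h3] with w hw hw'
    simpa [comp_ofComplex_apply] using hw hw'.le
  have han : AnalyticAt ℂ (F ∘ ofComplex) (z : ℂ) := by
    rw [← (hF z).meromorphicOrderAt_nonneg_iff_analyticAt]
    by_contra hneg
    rw [not_le] at hneg
    have h3 := (tendsto_norm_cobounded_atTop.comp
      ((tendsto_cobounded_iff_meromorphicOrderAt_neg (hF z).meromorphicAt).2 hneg))
    obtain ⟨w, hw1, hw2⟩ := (h2.and (h3.eventually_ge_atTop (C + 1))).exists
    simp at hw1 hw2
    linarith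
  have := le_of_tendsto ((han.continuousAt.tendsto.mono_left nhdsWithin_le_nhds).norm) h2
  simpa [comp_ofComplex_apply] using this

theorem norm_qPow_le {a b : ℤ} {h h' : ℝ} (hle : a / h ≤ b / h') (z : ℍ) :
    ‖qPow h' b z‖ ≤ ‖qPow h a z‖ := by
  rw [norm_qPow', norm_qPow', Real.exp_le_exp, neg_le_neg_iff]
  have : 2 * Real.pi * ((a : ℝ) / h) ≤ 2 * Real.pi * ((b : ℝ) / h') :=
    mul_le_mul_of_nonneg_left hle Real.two_pi_pos.le
  calc _ = 2 * Real.pi * ((a : ℝ) / h) * z.im := by ring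
    _ ≤ 2 * Real.pi * ((b : ℝ) / h') * z.im := mul_le_mul_of_nonneg_right this z.im_pos.le
    _ = _ := by ring

/-- Growth of order `h`, `a` implies growth of order `N`, `m`. -/
theorem exists_bddC_qPow (N : ℕ) [NeZero N] {h : ℝ} {a : ℤ} (hF : BddC (qPow h a * F)) :
    ∃ m : ℕ, BddC (qPow (N : ℝ) m * F) := by
  obtain ⟨C, A, hF⟩ := hF
  obtain ⟨m, hm⟩ := exists_nat_ge ((N : ℝ) * (a / h))
  refine ⟨m, C, A, ?_⟩
  filter_upwards [hF] with z hz hA
  refine le_trans ?_ (hz hA)
  simp only [Pi.mul_apply, norm_mul]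
  refine mul_le_mul_of_nonneg_right (norm_qPow_le ?_ z) (norm_nonneg _)
  have hN : (0 : ℝ) < N := by exact_mod_cast Nat.pos_of_ne_zero (NeZero.ne N)
  rw [le_div_iff₀ hN, Int.cast_natCast]
  linarith

/-- A meromorphic form of weight two for `Γ₀(N)`, up to equality off a discrete set. -/
structure IsWForm (N : ℕ) (G : ℍ → ℂ) : Prop where
  meroH : MeroH G
  invar : ∀ γ : Gamma0 N, G ∣[(2 : ℤ)] (γ : SL(2, ℤ)) =ᶠ[codiscrete ℍ] G
  cusp : ∀ γ : SL(2, ℤ), ∃ n : ℕ, BddC (qPow (N : ℝ) n * (G ∣[(2 : ℤ)] γ))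

theorem IsWForm.congr (hG : IsWForm N G) (h : G =ᶠ[codiscrete ℍ] F) : IsWForm N F where
  meroH := hG.meroH.congr h
  invar γ := ((codEq_slash h _ _).symm.trans (hG.invar γ)).trans h
  cusp γ := by
    obtain ⟨n, hn⟩ := hG.cusp γ
    exact ⟨n, hn.congr (EventuallyEq.mul (EventuallyEq.refl _ _) (codEq_slash h γ _))⟩

/-- The derivative `dj/dz`. -/
def djH (N : ℕ) [NeZero N] : ℍ → ℂ := dH (ev (jFC N : LaurentSeries ℂ))

theorem isMero_of_mdiff (hF : MDifferentiable 𝓘(ℂ, ℂ) 𝓘(ℂ, ℂ) F) : IsMero F := fun z =>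
  ((UpperHalfPlane.mdifferentiable_iff.1 hF).analyticAt
    (isOpen_upperHalfPlaneSet.mem_nhds z.im_pos)).meromorphicNFAt

theorem analyticAt_djH (z : ℍ) : AnalyticAt ℂ (djH N ∘ ofComplex) (z : ℂ) := by
  have := ((UpperHalfPlane.mdifferentiable_iff.1 (mdiff_ev_jFC (N := N))).analyticAt
    (isOpen_upperHalfPlaneSet.mem_nhds z.im_pos)).deriv
  refine this.congr ?_
  filter_upwards [eventually_im_pos z] with w hw
  simp [djH, dH, ofComplex_apply_of_im_pos hw]

theorem isMero_djH : IsMero (djH N) := fun z => (analyticAt_djH z).meromorphicNFAt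

theorem djH_slash (γ : SL(2, ℤ)) : djH N ∣[(2 : ℤ)] γ = djH N := by
  refine eq_of_codEq (isMero_slash isMero_djH γ 2) isMero_djH ?_
  refine (dH_comp_smul (isMero_of_mdiff mdiff_ev_jFC).meroH γ).symm.trans ?_
  exact codEq_of_eq fun z => by simp only [ev_jFC_smul]; rfl

theorem tendsto_djH :
    Tendsto (fun z => djH N z * qPow 1 1 z) atImInfty (𝓝 (-(2 * Real.pi * Complex.I))) := by
  have := tendsto_dH (n := -1) (h := 1) (isMero_of_mdiff (mdiff_ev_jFC (N := N)))
    (c := 1) (by simpa using tendsto_ev_jFC (N := N))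
  simp only [neg_neg] at this
  convert this using 2
  · rfl
  · push_cast; ring

theorem eventually_djH_ne_zero : ∀ᶠ z : ℍ in atImInfty, djH N z ≠ 0 := by
  have := (tendsto_djH (N := N)).eventually_ne
    (neg_ne_zero.2 (mul_ne_zero (mul_ne_zero two_ne_zero
      (Complex.ofReal_ne_zero.2 Real.pi_ne_zero)) Complex.I_ne_zero))
  filter_upwards [this] with z hz h0
  simp [h0] at hz

theorem nonzeroH_djH : NonzeroH (djH N) := by
  obtain ⟨A, hA⟩ : ∃ A : ℝ, ∀ z : ℍ, A ≤ z.im → djH N z ≠ 0 := by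
    have := eventually_djH_ne_zero (N := N)
    rw [Filter.Eventually, atImInfty_mem] at this
    exact this
  let z₀ : ℍ := ⟨⟨0, max A 0 + 1⟩, show (0 : ℝ) < max A 0 + 1 by
    linarith [le_max_right A 0]⟩
  refine nonzeroH_of_exists isMero_djH.meroH ⟨z₀, ?_⟩
  have h0 : meromorphicOrderAt (djH N ∘ ofComplex) (z₀ : ℂ) = 0 := by
    rw [(isMero_djH z₀).meromorphicOrderAt_eq_zero_iff, comp_ofComplex_apply]
    exact hA z₀ (show A ≤ max A 0 + 1 by linarith [le_max_left A 0])
  simp [h0]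

/-- The quotient of a weight two form by `dj` is a modular function. -/
theorem IsWForm.isModFun_div (hG : IsWForm N G) : IsModFun N (nfH (G / djH N)) := by
  have hm : MeroH (G / djH N) := hG.meroH.div isMero_djH.meroH
  have key : ∀ γ : SL(2, ℤ), (fun z => nfH (G / djH N) (γ • z)) =ᶠ[codiscrete ℍ]
      (G ∣[(2 : ℤ)] γ) / djH N := by
    intro γ
    filter_upwards [(nfH_codEq hm).comp_tendsto (tendsto_smul_cod γ)] with z hz
    simp only [Function.comp_apply] at hz
    rw [hz, Pi.div_apply, Pi.div_apply, ← congrFun (djH_slash (N := N) γ) z,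
      ModularForm.SL_slash_apply, ModularForm.SL_slash_apply,
      mul_div_mul_right _ _ (zpow_ne_zero _ (denom_ne_zero _ z))]
  refine ⟨isMero_nfH _, fun γ => ?_, fun γ z => ?_⟩
  · obtain ⟨n, hn⟩ := hG.cusp γ
    refine ⟨n, BddC.isBoundedAtImInfty ?_ ?_⟩
    · have h1 : BddC (qPow 1 1 * (djH N * qPow 1 1)⁻¹) :=
        ((BddC.of_isBoundedAtImInfty (isBoundedAtImInfty_qPow one_pos zero_le_one))).mul
          (BddC.of_isBoundedAtImInfty (isBoundedAtImInfty_of_tendsto
            (F := (djH N * qPow 1 1)⁻¹)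
            ((tendsto_djH (N := N)).inv₀ (neg_ne_zero.2 (mul_ne_zero (mul_ne_zero two_ne_zero
              (Complex.ofReal_ne_zero.2 Real.pi_ne_zero)) Complex.I_ne_zero)))))
      refine (hn.mul h1).congr ?_
      filter_upwards [key γ] with z hz
      simp only [Pi.mul_apply, Pi.inv_apply, hz, Pi.div_apply]
      field_simp [qPow_ne_zero]
    · intro z
      refine (meromorphicNFAt_congr ?_).2 ((meromorphicNFAt_mul_iff_right
        (g := fun w : ℂ => Complex.exp (2 * Real.pi * Complex.I * ((n : ℤ) : ℂ) * w / (N : ℝ)))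
        (by fun_prop) (Complex.exp_ne_zero _)).2
        (isMero_comp_smul (isMero_nfH (G / djH N)) γ z))
      filter_upwards [eventually_im_pos z] with w hw
      simp [qPow, ofComplex_apply_of_im_pos hw]
  · refine congrFun (eq_of_codEq (isMero_comp_smul (isMero_nfH _) _) (isMero_nfH _) ?_) z
    refine (key γ).trans (EventuallyEq.trans ?_ (nfH_codEq hm).symm)
    exact (hG.invar γ).div (EventuallyEq.refl _ _)

theorem isWForm_dH_ev (y : FC N) : IsWForm N (dH (ev (y : LaurentSeries ℂ))) := by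
  obtain ⟨hy, -⟩ := ev_spec y
  refine ⟨hy.mero.meroH.dH, fun γ => ?_, fun γ => ?_⟩
  · refine (dH_comp_smul hy.mero.meroH γ).symm.trans ?_
    exact codEq_of_eq fun z => by simp only [hy.smul]
  · rcases eq_or_ne y 0 with rfl | hy0
    · have h0 : ev ((0 : FC N) : LaurentSeries ℂ) = fun _ => (0 : ℂ) := by
        simpa using ev_algebraMap_eq (N := N) 0
      refine ⟨0, BddC.of_isBoundedAtImInfty (isBoundedAtImInfty_iff.2 ⟨0, 0, fun z _ => ?_⟩)⟩
      rw [h0, dH_const]
      simp
    · obtain ⟨c, -, hc⟩ := ord_cuspPlace γ hy0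
      have hd := tendsto_dH (isMero_comp_smul hy.mero γ) hc
      obtain ⟨m, hm⟩ := exists_bddC_qPow N (h := (cuspWidth N γ : ℝ))
        (a := -((cuspPlace γ : Place ℂ (FC N)).ord y))
        (F := dH fun z => ev (y : LaurentSeries ℂ) (γ • z))
        (BddC.of_isBoundedAtImInfty (isBoundedAtImInfty_of_tendsto
          (hd.congr fun z => mul_comm _ _)))
      exact ⟨m, hm.congr (EventuallyEq.mul (EventuallyEq.refl _ _)
        (dH_comp_smul hy.mero.meroH γ))⟩

/-- Modular functions times weight two forms are weight two forms. -/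
theorem IsWForm.ev_mul (hG : IsWForm N G) (y : FC N) :
    IsWForm N (ev (y : LaurentSeries ℂ) * G) := by
  obtain ⟨hy, -⟩ := ev_spec y
  refine ⟨hy.mero.meroH.mul hG.meroH, fun γ => ?_, fun γ => ?_⟩
  · filter_upwards [hG.invar γ] with z hz
    simp only [ModularForm.SL_slash_apply, Pi.mul_apply, hy.smul, mul_assoc] at hz ⊢
    rw [hz]
  · obtain ⟨n, hn⟩ := hy.meroCusp γ
    obtain ⟨n', hn'⟩ := hG.cusp γ
    refine ⟨n + n', ((BddC.of_isBoundedAtImInfty hn).mul hn').congr (codEq_of_eq fun z => ?_)⟩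
    simp only [ModularForm.SL_slash_apply, Pi.mul_apply, Nat.cast_add, qPow_add]
    ring

end FLTAgent.ModularDiff
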